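import Mathlib.RingTheory.RootsOfUnity.CyclotomicUnits
import Mathlib.RingTheory.Polynomial.Cyclotomic.Basic
import Mathlib.RingTheory.PrincipalIdealDomain
import Mathlib.Algebra.CharP.Lemmas
import Mathlib.Algebra.Field.ZMod
import Mathlib.Tactic.LinearCombination

/-!
Kummer's descent for the second case of Fermat's equation, over a principal ring containing a
primitive `p`-th root of unity and satisfying Kummer's lemma on units.
-/

namespace Fermat.Agent.FLT11

open Finset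

/-- What the descent needs from the ring `ℤ[ζ_p]`. -/
structure KummerRing (R : Type*) [CommRing R] (p : ℕ) (ζ : R) : Prop where
  prime_p : p.Prime
  odd_p : p ≠ 2
  prim : IsPrimitiveRoot ζ p
  prime_lam : Prime (ζ - 1)
  exists_int : ∀ x : R, ∃ n : ℤ, ζ - 1 ∣ x - n
  dvd_int : ∀ n : ℤ, ζ - 1 ∣ (n : R) → (p : ℤ) ∣ n
  assoc : Associated ((ζ - 1) ^ (p - 1)) (p : R)
  units_pow : ∀ u : Rˣ, (∃ n : ℤ, (p : R) ∣ (u : R) - n) → ∃ w : Rˣ, u = w ^ p

variable {R : Type*} [CommRing R] [IsDomain R] [IsPrincipalIdealRing R] {p : ℕ} {ζ : R}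

/-- A solution of exponent `m` of Kummer's generalised equation. -/
def HasSol (p : ℕ) (ζ : R) (m : ℕ) : Prop :=
  ∃ (x y z : R) (ε : Rˣ), IsCoprime x y ∧ ¬ ζ - 1 ∣ x ∧ ¬ ζ - 1 ∣ y ∧ ¬ ζ - 1 ∣ z ∧
    x ^ p + y ^ p = ε * ((ζ - 1) ^ (p * m) * z ^ p)

namespace KummerRing

variable (H : KummerRing R p ζ)

omit [IsDomain R] [IsPrincipalIdealRing R] in
include H in
lemma pow_sub_int (r : R) : ∃ n : ℤ, (p : R) ∣ r ^ p - n := by
  obtain ⟨n, s, hs⟩ := H.exists_int r
  refine ⟨n ^ p, ?_⟩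
  have hr : r = (n : R) + (ζ - 1) * s := by rw [← hs]; ring
  rw [hr, add_pow_prime_eq H.prime_p]
  push_cast
  have hlam : (p : R) ∣ ((ζ - 1) * s) ^ p := by
    rw [mul_pow]
    exact (H.assoc.symm.dvd.trans (pow_dvd_pow _ (Nat.sub_le p 1))).mul_right _
  refine (dvd_add hlam (((dvd_refl (p : R)).mul_right (n : R)).mul_right ((ζ - 1) * s) |>.mul_right
    (∑ k ∈ Ioo 0 p, (n : R) ^ (k - 1) * ((ζ - 1) * s) ^ (p - k - 1) * ↑(p.choose k / p)))).trans
    (dvd_of_eq ?_)
  ring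

omit [IsDomain R] [IsPrincipalIdealRing R] in
set_option linter.unusedSectionVars false in
include H in
lemma geom_sub (i : ℕ) : ∃ u : R, ζ ^ i - 1 = (ζ - 1) * u ∧ ζ - 1 ∣ u - i := by
  refine ⟨∑ k ∈ range i, ζ ^ k, (mul_geom_sum ζ i).symm, ?_⟩
  have : ∑ k ∈ range i, ζ ^ k - (i : R) = ∑ k ∈ range i, (ζ ^ k - 1) := by
    rw [sum_sub_distrib]; simp
  rw [this]
  exact dvd_sum fun k _ => sub_one_dvd_pow_sub_one ζ k

omit [IsDomain R] [IsPrincipalIdealRing R] in
include H in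
lemma not_dvd_natCast {i : ℕ} (h0 : 0 < i) (h : i < p) : ¬ ζ - 1 ∣ (i : R) := by
  intro hd
  have := H.dvd_int i (by exact_mod_cast hd)
  exact Nat.not_dvd_of_pos_of_lt h0 h (Int.natCast_dvd_natCast.mp this)

include H in
/-- The descent step. -/
lemma step {m : ℕ} (h : HasSol p ζ (m + 1)) : 0 < m ∧ HasSol p ζ m := by
  obtain ⟨x, y₀, z, ε, hcop, hx, hy, hz, heq⟩ := h
  have hp := H.prime_p
  have hp3 : 3 ≤ p := by have := hp.two_le; have := H.odd_p; omega
  have : NeZero p := ⟨hp.ne_zero⟩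
  set L := ζ - 1 with hL
  have hLp := H.prime_lam
  have hL0 : L ≠ 0 := hLp.ne_zero
  have hodd : Odd p := hp.odd_of_ne_two H.odd_p
  -- every factor is divisible by `L`
  have hprod : ∀ y : R, y ^ p = y₀ ^ p → ∏ i ∈ range p, (x + ζ ^ i * y) =
      ε * (L ^ (p * (m + 1)) * z ^ p) := by
    intro y hyp
    rw [← heq, ← hyp, H.prim.pow_add_pow_eq_prod_add_mul x y hodd]
    refine prod_bij (fun i _ => ζ ^ i) (fun i _ => ?_) (fun i hi j hj h => ?_) (fun μ hμ => ?_)
      (fun i _ => rfl)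
    · rw [Polynomial.mem_nthRootsFinset hp.pos, ← pow_mul, mul_comm, pow_mul, H.prim.pow_eq_one,
        one_pow]
    · exact H.prim.pow_inj (mem_range.mp hi) (mem_range.mp hj) h
    · rw [Polynomial.mem_nthRootsFinset hp.pos] at hμ
      obtain ⟨i, hi, rfl⟩ := H.prim.eq_pow_of_pow_eq_one hμ
      exact ⟨i, mem_range.mpr hi, rfl⟩
  have hxy₀ : L ∣ x + y₀ := by
    have : L ∣ ∏ i ∈ range p, (x + ζ ^ i * y₀) := by
      rw [hprod y₀ rfl]
      exact ((dvd_pow_self L (by positivity)).mul_right _).mul_left _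
    obtain ⟨i, -, hi⟩ := hLp.exists_mem_finset_dvd this
    have h2 : L ∣ (ζ ^ i - 1) * y₀ := (sub_one_dvd_pow_sub_one ζ i).mul_right _
    convert dvd_sub hi h2 using 1; ring
  -- normalise so that `L² ∣ x + y`
  obtain ⟨y, g₀, hy', hyc, hyp, hxy, hg₀L⟩ : ∃ y g₀ : R, ¬ L ∣ y ∧ IsCoprime x y ∧
      y ^ p = y₀ ^ p ∧ x + y = L * g₀ ∧ L ∣ g₀ := by
    obtain ⟨g, hg⟩ := hxy₀
    obtain ⟨n, hn⟩ := H.exists_int g
    obtain ⟨k, hk⟩ := H.exists_int y₀
    have hkp : ¬ (p : ℤ) ∣ k := by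
      rintro ⟨t, rfl⟩
      apply hy
      have hpd : L ∣ ((p : ℤ) * t : ℤ) := by
        push_cast
        exact ((dvd_pow_self L (by omega)).trans H.assoc.dvd).mul_right _
      simpa using dvd_add hk hpd
    have : Fact p.Prime := ⟨hp⟩
    have hk0 : (k : ZMod p) ≠ 0 := by rwa [Ne, ZMod.intCast_zmod_eq_zero_iff_dvd]
    set i := (-(n : ZMod p) / (k : ZMod p)).val with hi
    have hik : (p : ℤ) ∣ n + i * k := by
      rw [← ZMod.intCast_zmod_eq_zero_iff_dvd]
      push_cast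
      rw [hi, ZMod.natCast_zmod_val, div_mul_cancel₀ _ hk0, add_neg_cancel]
    obtain ⟨u, hu, hu'⟩ := H.geom_sub i
    have hu' : L ∣ u - i := hu'
    have hcast : L ∣ ((n + i * k : ℤ) : R) := by
      obtain ⟨t, ht⟩ := hik
      rw [ht]
      push_cast
      exact ((dvd_pow_self L (by omega)).trans H.assoc.dvd).mul_right _
    have hζu : IsUnit (ζ ^ i) := (H.prim.isUnit hp.ne_zero).pow i
    refine ⟨ζ ^ i * y₀, g + u * y₀, ?_, ?_, ?_, ?_, ?_⟩
    · exact fun h => hy (hζu.dvd_mul_left.mp h)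
    · exact (isCoprime_mul_unit_left_right hζu x y₀).mpr hcop
    · rw [mul_pow, ← pow_mul, mul_comm i p, pow_mul, H.prim.pow_eq_one, one_pow, one_mul]
    · linear_combination hg + y₀ * hu
    · have := dvd_add (dvd_add (dvd_add hn (hu'.mul_right y₀)) (hk.mul_left (i : R))) hcast
      convert this using 1
      push_cast
      ring
  -- the reduced factors
  choose u hu hu' using fun i => H.geom_sub i
  set g : ℕ → R := fun i => g₀ + u i * y with hg
  have hfac : ∀ i, x + ζ ^ i * y = L * g i := fun i => by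
    simp only [hg]; linear_combination hxy + y * hu i
  have hu0 : u 0 = 0 := by
    have := hu 0
    have h2 : L * u 0 = 0 := by rw [← this]; simp
    exact (mul_eq_zero.mp h2).resolve_left hL0
  have hunit : ∀ i, 0 < i → i < p → IsUnit (u i) := fun i h0 h => by
    have ha : Associated L (ζ ^ i - 1) := H.prim.associated_sub_one_pow_sub_one_of_coprime
      ((hp.coprime_iff_not_dvd.mpr (Nat.not_dvd_of_pos_of_lt h0 h)).symm)
    obtain ⟨v, hv⟩ := ha
    rw [hu i] at hv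
    rw [← mul_left_cancel₀ hL0 hv]
    exact v.isUnit
  have hnd : ∀ i, 0 < i → i < p → ¬ L ∣ g i := fun i h0 h hd => by
    rcases hLp.dvd_or_dvd ((dvd_add_right hg₀L).mp hd) with hd' | hd'
    · exact hLp.not_isUnit (isUnit_of_dvd_unit hd' (hunit i h0 h))
    · exact hy' hd'
  have hgcop : ∀ i j, i < p → j < p → i ≠ j → IsCoprime (g i) (g j) := by
    intro i j hi hj hij
    wlog hlt : i < j generalizing i j
    · exact (this j i hj hi hij.symm (by omega)).symm
    refine isCoprime_of_dvd _ _ ?_ ?_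
    · rintro ⟨h1, h2⟩
      rcases Nat.eq_zero_or_pos i with rfl | hi0
      · exact hnd j (by omega) hj (h2 ▸ dvd_zero L)
      · exact hnd i hi0 hi (h1 ▸ dvd_zero L)
    intro q hq _ hqi hqj
    have h1 : ζ ^ i * (ζ ^ (j - i) - 1) = ζ ^ j - ζ ^ i := by
      rw [mul_sub, ← pow_add, Nat.add_sub_cancel' hlt.le, mul_one]
    have h2 : g j - g i = ζ ^ i * u (j - i) * y := by
      apply mul_left_cancel₀ hL0
      linear_combination (-y) * h1 + (hfac i - hfac j) + ζ ^ i * y * hu (j - i)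
    have hqy : q ∣ y := by
      have h3 := dvd_sub hqj hqi
      rw [h2] at h3
      exact ((((H.prim.isUnit hp.ne_zero).pow i).mul
        (hunit (j - i) (by omega) (by omega))).dvd_mul_left).mp h3
    have hqx : q ∣ x := by
      have : x = L * g i - ζ ^ i * y := by rw [← hfac i]; ring
      rw [this]
      exact dvd_sub (hqi.mul_left _) (hqy.mul_left _)
    exact hq (hyc.isUnit_of_dvd' hqx hqy)
  have hgprod : ∏ i ∈ range p, g i = ε * (L ^ (p * m) * z ^ p) := by
    apply mul_left_cancel₀ (pow_ne_zero p hL0)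
    have := hprod y hyp
    simp only [hfac, prod_mul_distrib, prod_const, card_range] at this
    rw [this]; ring
  -- the distinguished factor carries all of `L`
  set rest := ∏ i ∈ (range p).erase 0, g i with hrest
  have hsplit : g 0 * rest = ∏ i ∈ range p, g i :=
    mul_prod_erase _ _ (mem_range.mpr hp.pos)
  have hrestL : ¬ L ∣ rest := fun hd => by
    obtain ⟨i, hi, hd⟩ := hLp.exists_mem_finset_dvd hd
    rw [mem_erase, mem_range] at hi
    exact hnd i (Nat.pos_of_ne_zero hi.1) hi.2 hd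
  have hm : 0 < m := by
    rcases Nat.eq_zero_or_pos m with rfl | h
    · exfalso
      have : L ∣ (ε : R) * z ^ p := by
        have h1 : L ∣ g 0 * rest := by
          simp only [hg, hu0, zero_mul, add_zero]; exact hg₀L.mul_right _
        rw [hsplit, hgprod] at h1
        simpa using h1
      exact hz (hLp.dvd_of_dvd_pow (ε.isUnit.dvd_mul_left.mp this))
    · exact h
  obtain ⟨h₀, hh₀⟩ : L ^ (p * m) ∣ g 0 := by
    refine hLp.pow_dvd_of_dvd_mul_right _ hrestL ?_
    rw [hsplit, hgprod]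
    exact (dvd_mul_right _ _).mul_left _
  have hzprod : h₀ * rest = ε * z ^ p := by
    apply mul_left_cancel₀ (pow_ne_zero (p * m) hL0)
    rw [← mul_assoc, ← hh₀, hsplit, hgprod]; ring
  have hh₀L : ¬ L ∣ h₀ := fun hd =>
    hz (hLp.dvd_of_dvd_pow (ε.isUnit.dvd_mul_left.mp (hzprod ▸ hd.mul_right rest)))
  have hpow₀ : ∃ (η : Rˣ) (r : R), h₀ = η * r ^ p := by
    have hc : IsCoprime h₀ (rest * (ε⁻¹ : Rˣ)) := by
      refine (IsCoprime.mul_right ?_ ((isCoprime_one_right (x := h₀)).of_isCoprime_of_dvd_right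
        (ε⁻¹).isUnit.dvd))
      refine IsCoprime.of_isCoprime_of_dvd_left ?_ (hh₀ ▸ dvd_mul_left h₀ _)
      exact IsCoprime.prod_right fun i hi => by
        rw [mem_erase, mem_range] at hi; exact hgcop 0 i hp.pos hi.2 hi.1.symm
    obtain ⟨r, v, hv⟩ := exists_associated_pow_of_mul_eq_pow' hc (c := z) (k := p) (by
      rw [← mul_assoc, hzprod]
      rw [mul_comm, ← mul_assoc, Units.inv_mul, one_mul])
    exact ⟨v, r, by rw [← hv]; ring⟩
  have hpowi : ∀ a, 0 < a → a < p → ∃ (η : Rˣ) (r : R), g a = η * r ^ p := by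
    intro a ha hap
    set others := ∏ i ∈ ((range p).erase 0).erase a, g i with hothers
    have hmem : a ∈ (range p).erase 0 := mem_erase.mpr ⟨ha.ne', mem_range.mpr hap⟩
    have hs : g a * others = rest := mul_prod_erase _ _ hmem
    have hc : IsCoprime (g a) (h₀ * others * (ε⁻¹ : Rˣ)) := by
      refine (IsCoprime.mul_right (IsCoprime.mul_right ?_ ?_)
        ((isCoprime_one_right (x := g a)).of_isCoprime_of_dvd_right (ε⁻¹).isUnit.dvd))
      · exact (hgcop a 0 hap hp.pos ha.ne').of_isCoprime_of_dvd_right (hh₀ ▸ dvd_mul_left h₀ _)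
      · exact IsCoprime.prod_right fun i hi => by
          simp only [mem_erase, mem_range] at hi; exact hgcop a i hap hi.2.2 (Ne.symm hi.1)
    obtain ⟨r, v, hv⟩ := exists_associated_pow_of_mul_eq_pow' hc (c := z) (k := p) (by
      have : g a * (h₀ * others) = ε * z ^ p := by rw [← hzprod, ← hs]; ring
      rw [← mul_assoc, this]
      rw [mul_comm, ← mul_assoc, Units.inv_mul, one_mul])
    exact ⟨v, r, by rw [← hv]; ring⟩
  obtain ⟨η₀, r₀, hr₀⟩ := hpow₀
  obtain ⟨η₁, r₁, hr₁⟩ := hpowi 1 (by omega) (by omega)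
  obtain ⟨η₂, r₂, hr₂⟩ := hpowi (p - 1) (by omega) (by omega)
  have hr₀L : ¬ L ∣ r₀ := fun hd => hh₀L (hr₀ ▸ (hd.pow hp.ne_zero).mul_left _)
  have hr₁L : ¬ L ∣ r₁ := fun hd =>
    hnd 1 (by omega) (by omega) (hr₁ ▸ (hd.pow hp.ne_zero).mul_left _)
  have hr₂L : ¬ L ∣ r₂ := fun hd =>
    hnd (p - 1) (by omega) (by omega) (hr₂ ▸ (hd.pow hp.ne_zero).mul_left _)
  have hr12 : IsCoprime r₁ r₂ := by
    have h := hgcop 1 (p - 1) (by omega) (by omega) (by omega)
    rw [hr₁, hr₂] at h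
    exact (IsCoprime.pow_iff hp.pos hp.pos).mp h.of_mul_left_right.of_mul_right_right
  -- the unit `1 + ζ` and Kummer's lemma
  obtain ⟨w, hw⟩ : IsUnit (1 + ζ) := by
    have h2 : ζ ^ 2 - 1 = L * u 2 := hu 2
    have : u 2 = 1 + ζ := mul_left_cancel₀ hL0 (by rw [← h2, hL]; ring)
    rw [← this]; exact hunit 2 (by omega) (by omega)
  have hζp : ζ * ζ ^ (p - 1) = 1 := by
    rw [← pow_succ', Nat.sub_add_cancel hp.pos, H.prim.pow_eq_one]
  have hid : g 1 + ζ * g (p - 1) = (1 + ζ) * g 0 := by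
    apply mul_left_cancel₀ hL0
    linear_combination (-1 : R) * hfac 1 + (-ζ) * hfac (p - 1) + (1 + ζ) * hfac 0 + y * hζp
  obtain ⟨ζu, hζu⟩ := H.prim.isUnit hp.ne_zero
  set δ : Rˣ := η₁⁻¹ * (ζu * η₂) with hδ
  set ε' : Rˣ := η₁⁻¹ * (w * η₀) with hε'
  have hnew : r₁ ^ p + δ * r₂ ^ p = ε' * (L ^ (p * m) * r₀ ^ p) := by
    apply mul_left_cancel₀ η₁.ne_zero
    rw [hr₁, hr₂, hh₀, hr₀, ← hw, ← hζu] at hid
    simp only [hδ, hε', Units.val_mul, ← mul_assoc, mul_add, Units.mul_inv, one_mul]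
    linear_combination hid
  obtain ⟨w', hw'⟩ := H.units_pow δ (by
    obtain ⟨a, ha⟩ := H.pow_sub_int r₁
    obtain ⟨b, hb⟩ := H.pow_sub_int r₂
    have hpb : ¬ (p : ℤ) ∣ b := by
      rintro ⟨t, rfl⟩
      apply hr₂L
      have h1 : L ∣ (p : R) := (dvd_pow_self L (by omega)).trans H.assoc.dvd
      have h2 := dvd_add (h1.trans hb) (h1.mul_right (t : R))
      push_cast at h2
      exact hLp.dvd_of_dvd_pow (n := p) (by simpa using h2)
    obtain ⟨c, d, hcd⟩ :=
      ((Nat.prime_iff_prime_int.mp hp).coprime_iff_not_dvd).mpr hpb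
    have hcd' : (c : R) * p + d * b = 1 := by exact_mod_cast congrArg (Int.cast : ℤ → R) hcd
    have hp0 : (p : R) ∣ L ^ (p * m) :=
      H.assoc.symm.dvd.trans (pow_dvd_pow _ (le_trans (Nat.sub_le p 1) (Nat.le_mul_of_pos_right p hm)))
    obtain ⟨T, hT⟩ := hp0
    obtain ⟨A, hA⟩ := ha
    obtain ⟨B, hB⟩ := hb
    refine ⟨-(d * a), (δ : R) * c + d * (ε' * T * r₀ ^ p - A - δ * B), ?_⟩
    push_cast
    linear_combination (-(δ : R)) * hcd' + (d : R) * hnew + (-(d : R)) * hA +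
      (-((d : R) * δ)) * hB + (d : R) * ε' * r₀ ^ p * hT)
  refine ⟨hm, r₁, (w' : R) * r₂, r₀, ε', ?_, hr₁L, ?_, hr₀L, ?_⟩
  · exact (isCoprime_mul_unit_left_right w'.isUnit r₁ r₂).mpr hr12
  · exact fun h => hr₂L (w'.isUnit.dvd_mul_left.mp h)
  · rw [mul_pow, ← hnew, hw', Units.val_pow_eq_pow_val]

include H in
/-- Kummer's generalised equation has no solution. -/
theorem no_sol : ∀ m, ¬ HasSol p ζ (m + 1) := by
  intro m
  induction m with
  | zero => exact fun h => lt_irrefl 0 (H.step h).1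
  | succ m ih => exact fun h => ih (H.step h).2

end KummerRing

end Fermat.Agent.FLT11
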