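import Fermat.Agent.FLT11.Units
import Mathlib.NumberTheory.FLT.Basic
import Mathlib.NumberTheory.Cyclotomic.Basic

/-!
Fermat's Last Theorem for exponent eleven.
-/

namespace Fermat.Agent.FLT11

open NumberField

/-- The cofactor `(a ^ 11 + b ^ 11) / (a + b)`. -/
def cofactor {R : Type*} [CommRing R] (a b : R) : R :=
  a ^ 10 - a ^ 9 * b + a ^ 8 * b ^ 2 - a ^ 7 * b ^ 3 + a ^ 6 * b ^ 4 - a ^ 5 * b ^ 5 +
    a ^ 4 * b ^ 6 - a ^ 3 * b ^ 7 + a ^ 2 * b ^ 8 - a * b ^ 9 + b ^ 10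

lemma cast_cofactor (n : ℕ) (a b : ℤ) :
    ((cofactor a b : ℤ) : ZMod n) = cofactor (a : ZMod n) (b : ZMod n) := by
  simp [cofactor]

lemma cofactor_neg {R : Type*} [CommRing R] (a : R) : cofactor a (-a) = 11 * a ^ 10 := by
  unfold cofactor; ring

lemma eleventh_root {u v w : ℤ} (h : IsCoprime u v) (he : u * v = w ^ 11) : ∃ d, u = d ^ 11 := by
  obtain ⟨d, hd⟩ := exists_associated_pow_of_mul_eq_pow' h he
  rcases Int.associated_iff.mp hd with h | h
  · exact ⟨d, h.symm⟩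
  · exact ⟨-d, by rw [Odd.neg_pow (by decide), h]; ring⟩

/-- Sophie Germain: the factorisation of one side in the first case. -/
lemma split {a b c : ℤ} (h : a ^ 11 + b ^ 11 + c ^ 11 = 0) (hc : ¬ (11 : ℤ) ∣ c)
    (hab : IsCoprime a b) :
    ∃ A T : ℤ, a + b = A ^ 11 ∧ cofactor a b = T ^ 11 := by
  have hprod : (a + b) * cofactor a b = (-c) ^ 11 := by
    rw [Odd.neg_pow (by decide)]
    unfold cofactor
    linear_combination h
  have hcop : IsCoprime (a + b) (cofactor a b) := by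
    rw [Int.isCoprime_iff_gcd_eq_one]
    by_contra hne
    obtain ⟨q, hq, hd⟩ := Nat.exists_prime_and_dvd hne
    have : Fact q.Prime := ⟨hq⟩
    have hqi := Nat.prime_iff_prime_int.mp hq
    have h1 : (q : ℤ) ∣ a + b := (Int.natCast_dvd_natCast.mpr hd).trans (Int.gcd_dvd_left _ _)
    have h2 : (q : ℤ) ∣ cofactor a b :=
      (Int.natCast_dvd_natCast.mpr hd).trans (Int.gcd_dvd_right _ _)
    have h1' : (b : ZMod q) = -(a : ZMod q) := by
      have := (ZMod.intCast_zmod_eq_zero_iff_dvd _ q).mpr h1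
      push_cast at this
      linear_combination this
    have h2' := (ZMod.intCast_zmod_eq_zero_iff_dvd _ q).mpr h2
    rw [cast_cofactor, h1', cofactor_neg] at h2'
    rcases mul_eq_zero.mp h2' with h11 | ha
    · have hq11 : q ∣ 11 := (ZMod.natCast_eq_zero_iff 11 q).mp (by exact_mod_cast h11)
      have := (Nat.prime_dvd_prime_iff_eq hq (by norm_num)).mp hq11
      subst this
      have : (11 : ℤ) ∣ (-c) ^ 11 := hprod ▸ h1.mul_right _
      exact hc (dvd_neg.mp (Int.Prime.dvd_pow' (p := 11) (by norm_num) this))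
    · have ha' : (q : ℤ) ∣ a :=
        (ZMod.intCast_zmod_eq_zero_iff_dvd _ q).mp (pow_eq_zero_iff (by norm_num) |>.mp ha)
      have hb' : (q : ℤ) ∣ b := by simpa using dvd_sub h1 ha'
      exact hqi.not_isUnit (hab.isUnit_of_dvd' ha' hb')
  obtain ⟨A, hA⟩ := eleventh_root hcop hprod
  obtain ⟨T, hT⟩ := eleventh_root hcop.symm (by rw [mul_comm]; exact hprod)
  exact ⟨A, T, hA, hT⟩

lemma pow_eleven_mod (x : ZMod 23) : x ^ 11 = 0 ∨ x ^ 11 = 1 ∨ x ^ 11 = -1 := by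
  revert x; decide +kernel

lemma residues_A : ∀ x y z : ZMod 23, (x = 0 ∨ x = 1 ∨ x = -1) → (y = 1 ∨ y = -1) →
    (z = 1 ∨ z = -1) → x = y + z → x = 0 ∧ z = -y := by
  decide +kernel

lemma residues_T : ∀ x y : ZMod 23, (x = 1 ∨ x = -1) → (y = 0 ∨ y = 1 ∨ y = -1) →
    11 * x ^ 10 ≠ y := by
  decide +kernel

lemma residues_sum : ∀ x y z : ZMod 23, (x = 1 ∨ x = -1) → (y = 1 ∨ y = -1) →
    (z = 1 ∨ z = -1) → x + y + z ≠ 0 := by
  decide +kernel

lemma case_one_aux {a b c : ℤ} (h : a ^ 11 + b ^ 11 + c ^ 11 = 0)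
    (ha : ¬ (11 : ℤ) ∣ a) (hb : ¬ (11 : ℤ) ∣ b) (hc : ¬ (11 : ℤ) ∣ c)
    (hab : IsCoprime a b) (hbc : IsCoprime b c) (hca : IsCoprime c a)
    (hc23 : (c : ZMod 23) = 0) : False := by
  have : Fact (Nat.Prime 23) := ⟨by norm_num⟩
  obtain ⟨A, T, hA, hT⟩ := split h hc hab
  obtain ⟨B, -, hB, -⟩ := split (a := b) (b := c) (c := a) (by linarith) ha hbc
  obtain ⟨C, -, hC, -⟩ := split (a := c) (b := a) (c := b) (by linarith) hb hca
  have hne : ∀ x : ℤ, IsCoprime c x → (x : ZMod 23) ≠ 0 := fun x hx h0 => by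
    have h1 := (ZMod.intCast_zmod_eq_zero_iff_dvd _ 23).mp hc23
    have h2 := (ZMod.intCast_zmod_eq_zero_iff_dvd _ 23).mp h0
    exact (Nat.prime_iff_prime_int.mp (by norm_num : Nat.Prime 23)).not_isUnit
      (hx.isUnit_of_dvd' h1 h2)
  have hA' := congrArg (Int.cast : ℤ → ZMod 23) hA
  have hB' := congrArg (Int.cast : ℤ → ZMod 23) hB
  have hC' := congrArg (Int.cast : ℤ → ZMod 23) hC
  have hT' := congrArg (Int.cast : ℤ → ZMod 23) hT
  rw [cast_cofactor] at hT'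
  push_cast at hA' hB' hC' hT'
  rw [hc23, add_zero] at hB'
  rw [hc23, zero_add] at hC'
  have hb0 := hne b hbc.symm
  have ha0 := hne a hca
  have hab' : (a : ZMod 23) + b = 0 ∧ (b : ZMod 23) = -(a : ZMod 23) := by
    obtain ⟨h1, h2⟩ := residues_A ((a : ZMod 23) + b) a b (hA' ▸ pow_eleven_mod _)
      ((hC' ▸ pow_eleven_mod _ : (a : ZMod 23) = 0 ∨ _).resolve_left ha0)
      ((hB' ▸ pow_eleven_mod _ : (b : ZMod 23) = 0 ∨ _).resolve_left hb0) rfl
    exact ⟨h1, h2⟩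
  rw [hab'.2, cofactor_neg] at hT'
  exact residues_T _ _ ((hC' ▸ pow_eleven_mod _ : (a : ZMod 23) = 0 ∨ _).resolve_left ha0)
    (pow_eleven_mod (T : ZMod 23)) hT'

/-- The first case of Fermat's Last Theorem for exponent eleven. -/
theorem case_one {a b c : ℤ} (h : a ^ 11 + b ^ 11 + c ^ 11 = 0)
    (ha : ¬ (11 : ℤ) ∣ a) (hb : ¬ (11 : ℤ) ∣ b) (hc : ¬ (11 : ℤ) ∣ c)
    (hab : IsCoprime a b) (hbc : IsCoprime b c) (hca : IsCoprime c a) : False := by
  have : Fact (Nat.Prime 23) := ⟨by norm_num⟩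
  have h' := congrArg (Int.cast : ℤ → ZMod 23) h
  push_cast at h'
  by_cases ha23 : (a : ZMod 23) = 0
  · exact case_one_aux (a := b) (b := c) (c := a) (by linarith) hb hc ha hbc hca hab ha23
  by_cases hb23 : (b : ZMod 23) = 0
  · exact case_one_aux (a := c) (b := a) (c := b) (by linarith) hc ha hb hca hab hbc hb23
  by_cases hc23 : (c : ZMod 23) = 0
  · exact case_one_aux h ha hb hc hab hbc hca hc23
  exact residues_sum _ _ _ ((pow_eleven_mod _).resolve_left (pow_ne_zero _ ha23))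
    ((pow_eleven_mod _).resolve_left (pow_ne_zero _ hb23))
    ((pow_eleven_mod _).resolve_left (pow_ne_zero _ hc23)) h'

local instance factElevenMain : Fact (Nat.Prime 11) := ⟨by norm_num⟩

/-- The second case of Fermat's Last Theorem for exponent eleven. -/
theorem case_two {a b c : ℤ} (h : a ^ 11 + b ^ 11 + c ^ 11 = 0) (hc0 : c ≠ 0)
    (hc : (11 : ℤ) ∣ c) (hab : IsCoprime a b) (hbc : IsCoprime b c) (hca : IsCoprime c a) :
    False := by
  let K := CyclotomicField 11 ℚ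
  have hK : IsCyclotomicExtension {11} ℚ K := CyclotomicField.isCyclotomicExtension 11 ℚ
  have hpid := eleven_pid K
  have H := kummerRing_eleven K
  set L := (IsCyclotomicExtension.zeta_spec 11 ℚ K).toInteger - 1 with hL
  obtain ⟨k, c', hc', rfl⟩ := WfDvdMonoid.max_power_factor hc0
    (Nat.prime_iff_prime_int.mp (by norm_num : Nat.Prime 11)).irreducible
  have hk : 0 < k := by
    rcases Nat.eq_zero_or_pos k with rfl | hk
    · simp at hc; exact absurd hc hc'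
    · exact hk
  have h11 : (11 : ℤ) ∣ ((11 : ℕ) : ℤ) ^ k * c' := hc
  have hnd : ∀ x : ℤ, IsCoprime ((((11 : ℕ) : ℤ)) ^ k * c') x → ¬ L ∣ (x : 𝓞 K) := by
    intro x hx hd
    exact (Nat.prime_iff_prime_int.mp (by norm_num : Nat.Prime 11)).not_isUnit
      (hx.isUnit_of_dvd' h11 (H.dvd_int x hd))
  obtain ⟨v, hv⟩ := H.assoc
  apply H.no_sol (10 * k - 1)
  refine ⟨(a : 𝓞 K), (b : 𝓞 K), ((c' : ℤ) : 𝓞 K), -(v ^ (11 * k)), ?_, hnd a hca, hnd b hbc.symm,
    fun hd => hc' (H.dvd_int c' hd), ?_⟩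
  · exact hab.map (Int.castRingHom (𝓞 K))
  · rw [Nat.sub_add_cancel (by omega)]
    have h' := congrArg (Int.cast : ℤ → 𝓞 K) h
    have e : (((11 : ℕ) : 𝓞 K) ^ k) ^ 11 = L ^ (11 * (10 * k)) * (v : 𝓞 K) ^ (11 * k) := by
      rw [← hv, ← pow_mul, mul_pow, ← pow_mul, hL]
      ring_nf
    push_cast at h' ⊢
    rw [mul_pow] at h'
    have e' : ((11 : 𝓞 K) ^ k) ^ 11 = L ^ (11 * (10 * k)) * (v : 𝓞 K) ^ (11 * k) := by
      exact_mod_cast e
    rw [e'] at h'
    linear_combination h'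

/-- Fermat's Last Theorem for exponent eleven. -/
theorem fermat_eleven {a b c : ℤ} (h : a ^ 11 + b ^ 11 = c ^ 11) : a * b * c = 0 := by
  by_contra habc
  have main : ∀ x y z : ℤ, x ≠ 0 → y ≠ 0 → z ≠ 0 → IsCoprime x y → IsCoprime y z → IsCoprime z x →
      x ^ 11 + y ^ 11 + z ^ 11 = 0 → False := by
    intro x y z hx hy hz hxy hyz hzx he
    by_cases h1 : (11 : ℤ) ∣ x
    · exact case_two (a := y) (b := z) (c := x) (by linarith) hx h1 hyz hzx hxy
    by_cases h2 : (11 : ℤ) ∣ y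
    · exact case_two (a := z) (b := x) (c := y) (by linarith) hy h2 hzx hxy hyz
    by_cases h3 : (11 : ℤ) ∣ z
    · exact case_two he hz h3 hxy hyz hzx
    exact case_one he h1 h2 h3 hxy hyz hzx
  have ha : a ≠ 0 := left_ne_zero_of_mul (left_ne_zero_of_mul habc)
  have hb : b ≠ 0 := right_ne_zero_of_mul (left_ne_zero_of_mul habc)
  obtain ⟨a', b', hcop, ha', hb'⟩ :=
    Int.exists_gcd_one (m := a) (n := b) (Int.gcd_pos_of_ne_zero_left _ ha)
  set g : ℤ := (Int.gcd a b : ℤ)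
  have hg : g ≠ 0 := fun h0 => ha (by rw [ha', h0, mul_zero])
  obtain ⟨c', hc'⟩ : g ∣ c := by
    rw [← Int.pow_dvd_pow_iff (show (11:ℕ) ≠ 0 by norm_num), ← h, ha', hb']
    exact ⟨a' ^ 11 + b' ^ 11, by ring⟩
  have heq : a' ^ 11 + b' ^ 11 = c' ^ 11 := by
    apply mul_left_cancel₀ (pow_ne_zero 11 hg)
    rw [mul_add, ← mul_pow, ← mul_pow, ← mul_pow, mul_comm g a', mul_comm g b', ← ha', ← hb',
      ← hc', h]
  have hab : IsCoprime a' b' := Int.isCoprime_iff_gcd_eq_one.mpr hcop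
  have hnc : IsCoprime b' c' := by
    have h1 : IsCoprime (b' ^ 11) (a' ^ 11 + 1 * b' ^ 11) :=
      (hab.symm.pow (m := 11) (n := 11)).add_mul_right_right 1
    rw [one_mul, heq] at h1
    exact (IsCoprime.pow_iff (by norm_num) (by norm_num)).mp h1
  have hca : IsCoprime c' a' := by
    have h1 : IsCoprime (a' ^ 11) (b' ^ 11 + 1 * a' ^ 11) :=
      (hab.pow (m := 11) (n := 11)).add_mul_right_right 1
    rw [one_mul, add_comm, heq] at h1
    exact ((IsCoprime.pow_iff (by norm_num) (by norm_num)).mp h1).symm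
  refine main a' b' (-c') ?_ ?_ ?_ hab hnc.neg_right hca.neg_left ?_
  · rintro rfl; exact ha (by rw [ha', zero_mul])
  · rintro rfl; exact hb (by rw [hb', zero_mul])
  · simp only [ne_eq, neg_eq_zero]
    rintro rfl
    exact habc (by rw [hc']; ring)
  · rw [Odd.neg_pow (by decide)]
    linarith

end Fermat.Agent.FLT11
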