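import Mathlib.NumberTheory.NumberField.Cyclotomic.Ideal
import Mathlib.NumberTheory.NumberField.Cyclotomic.Embeddings
import Mathlib.NumberTheory.NumberField.ClassNumber
import Mathlib.Analysis.Real.Pi.Bounds
import Mathlib.Tactic

/-!
The ring of integers of the eleventh cyclotomic field is principal.
-/

namespace Fermat.Agent.FLT11

open NumberField Polynomial InfinitePlace Ideal Module

variable {K : Type*} [Field K] [NumberField K] [IsCyclotomicExtension {11} ℚ K]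

local instance factEleven : Fact (Nat.Prime 11) := ⟨by norm_num⟩

variable {ζ : K} (hζ : IsPrimitiveRoot ζ 11)

include hζ in
lemma adjoin_zeta_eq_top : Algebra.adjoin ℤ {hζ.toInteger} = ⊤ :=
  IsCyclotomicExtension.Rat.adjoin_singleton_eq_top hζ

include hζ in
/-- Congruences on `ζ` propagate to the whole ring of integers. -/
lemma exists_int_congr {a : 𝓞 K} {r : ℤ} (ha : a ∣ hζ.toInteger - r) (x : 𝓞 K) :
    ∃ n : ℤ, a ∣ x - n := by
  have hx : x ∈ Algebra.adjoin ℤ {hζ.toInteger} := by rw [adjoin_zeta_eq_top hζ]; trivial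
  induction hx using Algebra.adjoin_induction with
  | mem x hx => rw [Set.mem_singleton_iff] at hx; exact ⟨r, hx ▸ ha⟩
  | algebraMap n => exact ⟨n, by simp⟩
  | add x y _ _ h1 h2 =>
    obtain ⟨m, hm⟩ := h1; obtain ⟨n, hn⟩ := h2
    exact ⟨m + n, by convert dvd_add hm hn using 1; push_cast; ring⟩
  | mul x y _ _ h1 h2 =>
    obtain ⟨m, hm⟩ := h1; obtain ⟨n, hn⟩ := h2
    refine ⟨m * n, ?_⟩
    convert dvd_add (hm.mul_right y) (hn.mul_left (m : 𝓞 K)) using 1; push_cast; ring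

omit [NumberField K] [IsCyclotomicExtension {11} ℚ K] in
include hζ in
lemma zeta_geom_sum : ∑ i ∈ Finset.range 11, hζ.toInteger ^ i = 0 :=
  hζ.toInteger_isPrimitiveRoot.geom_sum_eq_zero (by norm_num)

/-- Over `23` there is a principal prime, generated by `1 - ζ + ζ ^ 4`. -/
lemma exists_principal_prime_over_twentyThree (hζ : IsPrimitiveRoot ζ 11) :
    ∃ P ∈ primesOver (span {(23 : ℤ)}) (𝓞 K), Submodule.IsPrincipal P := by
  have : Fact (Nat.Prime 23) := ⟨by norm_num⟩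
  set z := hζ.toInteger with hz
  set a := 1 - z + z ^ 4 with ha
  have hg := zeta_geom_sum hζ
  simp only [Finset.sum_range_succ, Finset.sum_range_zero, ← hz] at hg
  have h23 : a ∣ 23 := ⟨14 + 6 * z + 4 * z ^ 2 + 15 * z ^ 3 + 12 * z ^ 4 + 17 * z ^ 5 +
    24 * z ^ 6 + 20 * z ^ 7 + 19 * z ^ 8 + 13 * z ^ 9, by
      rw [ha]; grind⟩
  have hr : a ∣ z - ((4 : ℤ) : 𝓞 K) := ⟨-3 - z - z ^ 2 - 3 * z ^ 3 - 2 * z ^ 4 - 3 * z ^ 5 -
    4 * z ^ 6 - 3 * z ^ 7 - 3 * z ^ 8 - 2 * z ^ 9, by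
      rw [ha]; push_cast; grind⟩
  -- the residue map
  obtain ⟨φ, hφ⟩ : ∃ φ : 𝓞 K →ₐ[ℤ] ZMod 23, φ z = 4 := by
    set B := IsPrimitiveRoot.integralPowerBasis hζ
    have hgen : B.gen = z := IsPrimitiveRoot.integralPowerBasis_gen hζ
    have hev : aeval (4 : ZMod 23) (minpoly ℤ B.gen) = 0 := by
      rw [hgen, hz, ← RingOfIntegers.minpoly_coe]
      change aeval (4 : ZMod 23) (minpoly ℤ ζ) = 0
      rw [← cyclotomic_eq_minpoly hζ (by norm_num), aeval_def, eval₂_eq_eval_map, map_cyclotomic,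
        cyclotomic_prime, eval_finsetSum]
      simp only [eval_pow, eval_X]
      rfl
    exact ⟨B.lift 4 hev, by rw [← hgen]; exact B.lift_gen 4 hev⟩
  have hφa : φ a = 0 := by
    rw [ha]; simp only [map_add, map_sub, map_one, map_pow, hφ]; rfl
  have hker : RingHom.ker φ.toRingHom = span {a} := by
    ext x
    rw [RingHom.mem_ker, mem_span_singleton]
    constructor
    · intro hx
      obtain ⟨n, hn⟩ := exists_int_congr hζ hr x
      obtain ⟨t, ht⟩ := hn
      have hn0 : (n : ZMod 23) = 0 := by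
        have := congrArg φ ht
        rw [map_sub, map_mul, hφa, zero_mul, map_intCast] at this
        rwa [show φ x = 0 from hx, zero_sub, neg_eq_zero] at this
      obtain ⟨m, rfl⟩ := (ZMod.intCast_zmod_eq_zero_iff_dvd n 23).mp hn0
      have : x = a * t + ((23 : ℕ) : ℤ) * (m : 𝓞 K) := by rw [← ht]; push_cast; ring
      rw [this]
      exact dvd_add (dvd_mul_right a t) (by push_cast; exact h23.mul_right _)
    · rintro ⟨t, rfl⟩
      change φ (a * t) = 0
      rw [map_mul, hφa, zero_mul]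
  refine ⟨span {a}, ⟨hker ▸ RingHom.ker_isPrime _, ⟨?_⟩⟩, ⟨a, rfl⟩⟩
  rw [← hker]
  ext n
  rw [mem_span_singleton, Ideal.under, mem_comap, RingHom.mem_ker]
  change _ ↔ φ (algebraMap ℤ (𝓞 K) n) = 0
  rw [AlgHom.commutes, algebraMap_int_eq, eq_intCast, ZMod.intCast_zmod_eq_zero_iff_dvd]
  rfl

variable (K)

lemma minkowski_lt :
    (4 / Real.pi) ^ nrComplexPlaces K *
      ((finrank ℚ K).factorial / (finrank ℚ K) ^ (finrank ℚ K) * √|(discr K : ℝ)|) < 60 := by
  rw [IsCyclotomicExtension.Rat.nrComplexPlaces_eq_totient_div_two 11, IsCyclotomicExtension.Rat.discr_prime 11 K,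
    IsCyclotomicExtension.Rat.finrank 11 K, Nat.totient_prime (by norm_num)]
  norm_num [Nat.factorial]
  have h1 : √(2357947691 : ℝ) ≤ 48559 := by
    rw [Real.sqrt_le_left] <;> norm_num
  have h2 : (4 / Real.pi) ^ 5 ≤ (4 / 3.14) ^ 5 := by
    gcongr
    exact Real.pi_gt_d2.le
  calc (4 / Real.pi) ^ 5 * (567 / 1562500 * √(2357947691 : ℝ))
      ≤ (4 / 3.14) ^ 5 * (567 / 1562500 * 48559) := by gcongr
    _ < 60 := by norm_num

/-- The ring of integers of `ℚ(ζ₁₁)` is principal. -/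
theorem eleven_pid : IsPrincipalIdealRing (𝓞 K) := by
  have hζ := IsCyclotomicExtension.zeta_spec 11 ℚ K
  have : IsGalois ℚ K := IsCyclotomicExtension.isGalois {11} ℚ K
  refine RingOfIntegers.isPrincipalIdealRing_of_isPrincipal_of_lt_or_isPrincipal_of_mem_primesOver_of_mem_Icc
    fun p hp hpp => ?_
  have hM : ⌊(4 / Real.pi) ^ nrComplexPlaces K *
      ((finrank ℚ K).factorial / (finrank ℚ K) ^ (finrank ℚ K) * √|(discr K : ℝ)|)⌋₊ < 60 := by
    rw [Nat.floor_lt (by positivity)]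
    exact_mod_cast minkowski_lt K
  rw [Finset.mem_Icc] at hp
  have hp60 : p < 60 := lt_of_le_of_lt hp.2 hM
  by_cases h11 : p = 11
  · subst h11
    refine ⟨_, ⟨?_, ?_⟩, Or.inr ⟨hζ.toInteger - 1, rfl⟩⟩
    · exact (Ideal.span_singleton_prime hζ.zeta_sub_one_prime'.ne_zero).mpr hζ.zeta_sub_one_prime'
    · refine ⟨?_⟩
      ext n
      rw [mem_span_singleton, Ideal.under, mem_comap, mem_span_singleton, algebraMap_int_eq,
        eq_intCast]
      exact (IsCyclotomicExtension.Rat.zeta_sub_one_dvd_intCast_iff' 11 hζ).symm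
  by_cases h23 : p = 23
  · subst h23
    obtain ⟨P, hP, hP'⟩ := exists_principal_prime_over_twentyThree hζ
    exact ⟨P, hP, Or.inr hP'⟩
  have : Fact p.Prime := ⟨hpp⟩
  have hmax : (span {(p : ℤ)}).IsMaximal :=
    ((Ideal.span_singleton_prime (by exact_mod_cast hpp.ne_zero)).mpr
      (Nat.prime_iff_prime_int.mp hpp)).isMaximal (by simp [hpp.ne_zero])
  obtain ⟨P, hP, hPu⟩ := Ideal.exists_maximal_ideal_liesOver_of_isIntegral (span {(p : ℤ)}) (S := 𝓞 K)
  refine ⟨P, ⟨hP.isPrime, hPu⟩, Or.inl ?_⟩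
  have hnd : ¬ p ∣ 11 := fun h =>
    h11 ((Nat.prime_dvd_prime_iff_eq hpp (by norm_num)).mp h)
  rw [IsCyclotomicExtension.Rat.inertiaDeg_eq_of_not_dvd (m := 11) p K _ hnd]
  refine lt_of_lt_of_le hM ?_
  -- the order of `p` modulo `11`
  by_contra hlt
  have hpow : (p : ZMod 11) ^ orderOf (p : ZMod 11) = 1 := pow_orderOf_eq_one _
  have hpos : 0 < orderOf (p : ZMod 11) := by
    rw [orderOf_pos_iff, isOfFinOrder_iff_pow_eq_one]
    refine ⟨10, by norm_num, ZMod.pow_card_sub_one_eq_one ?_⟩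
    rw [Ne, ZMod.natCast_eq_zero_iff]
    exact fun h => h11 ((Nat.prime_dvd_prime_iff_eq (by norm_num) hpp).mp h).symm
  have hsmall : orderOf (p : ZMod 11) < 6 := by
    by_contra hc
    exact hlt (le_trans (le_trans (by norm_num) (Nat.pow_le_pow_left hpp.two_le 6))
      (Nat.pow_le_pow_right hpp.pos (by omega)))
  have key : ∀ q : Fin 60, ∀ e : Fin 6, (0 < e.1 ∧ q.1 ^ e.1 < 60 ∧ q.1 ^ e.1 % 11 = 1) →
      q.1 ∈ [1, 12, 23, 34, 45, 56] := by
    decide +kernel
  have hmem := key ⟨p, hp60⟩ ⟨_, hsmall⟩ ⟨hpos, not_le.mp hlt, ?_⟩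
  · simp only [List.mem_cons, List.not_mem_nil, or_false] at hmem
    rcases hmem with rfl | rfl | rfl | rfl | rfl | rfl <;> first | exact h23 rfl | norm_num at hpp
  rw [← Nat.cast_pow] at hpow
  have := congrArg ZMod.val hpow
  rwa [ZMod.val_natCast] at this

end Fermat.Agent.FLT11
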