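import Mathlib.Algebra.Field.ZMod
import Mathlib.Tactic.LinearCombination
import Mathlib.Tactic.Ring
import Mathlib.Algebra.CharP.Lemmas
import Mathlib.RingTheory.Int.Basic
import Mathlib.Tactic.NormNum.Prime

/-!
Arithmetic with truncated expansions in powers of a uniformiser, coefficients modulo eleven,
and independence of units with distinct leading degrees.
-/

namespace Fermat.Agent.FLT11

variable {R : Type*} [CommRing R]

/-- Value of a coefficient list at `L`. -/
def lev (L : R) : List ℕ → R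
  | [] => 0
  | a :: as => a + L * lev L as

/-- Coefficientwise sum modulo eleven. -/
def addT : List ℕ → List ℕ → List ℕ
  | [], b => b
  | a, [] => a
  | a :: as, b :: bs => (a + b) % 11 :: addT as bs

/-- Product of coefficient lists, truncated to length `n`, modulo eleven. -/
def mulT : ℕ → List ℕ → List ℕ → List ℕ
  | 0, _, _ => []
  | _, [], _ => []
  | n + 1, a :: as, b => addT ((b.take (n + 1)).map (fun x => a * x % 11)) (0 :: mulT n as b)

/-- Truncated power. -/
def powT (n : ℕ) (a : List ℕ) : ℕ → List ℕ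
  | 0 => [1]
  | e + 1 => mulT n a (powT n a e)

section

variable {L : R} {n : ℕ}

lemma dvd_natCast_mod (h : L ^ n ∣ ((11 : ℕ) : R)) (x : ℕ) :
    L ^ n ∣ ((x % 11 : ℕ) : R) - x := by
  have e : ((x % 11 : ℕ) : R) + ((11 : ℕ) : R) * ((x / 11 : ℕ) : R) = x := by
    rw [← Nat.cast_mul, ← Nat.cast_add, Nat.mod_add_div]
  rw [show ((x % 11 : ℕ) : R) - x = -(((11 : ℕ) : R) * ((x / 11 : ℕ) : R)) by
    linear_combination e]
  exact (h.mul_right _).neg_right

lemma lev_addT (h : L ^ n ∣ ((11 : ℕ) : R)) : ∀ a b : List ℕ,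
    L ^ n ∣ lev L (addT a b) - (lev L a + lev L b)
  | [], b => by simp [addT, lev]
  | a :: as, [] => by simp [addT, lev]
  | a :: as, b :: bs => by
    convert dvd_add (dvd_natCast_mod h (a + b)) ((lev_addT h as bs).mul_left L) using 1
    simp only [addT, lev]; push_cast; ring

lemma lev_scale (h : L ^ n ∣ ((11 : ℕ) : R)) (c : ℕ) : ∀ b : List ℕ,
    L ^ n ∣ lev L (b.map (fun x => c * x % 11)) - c * lev L b
  | [] => by simp [lev]
  | b :: bs => by
    convert dvd_add (dvd_natCast_mod h (c * b)) ((lev_scale h c bs).mul_left L) using 1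
    simp only [List.map_cons, lev]; push_cast; ring

lemma lev_take : ∀ (k : ℕ) (b : List ℕ), L ^ k ∣ lev L (b.take k) - lev L b
  | 0, b => by simp
  | k + 1, [] => by simp [lev]
  | k + 1, b :: bs => by
    rw [pow_succ']
    convert mul_dvd_mul_left L (lev_take k bs) using 1
    simp only [List.take_succ_cons, lev]; ring

lemma lev_mulT : ∀ (k : ℕ), L ^ k ∣ ((11 : ℕ) : R) → ∀ a b : List ℕ,
    L ^ k ∣ lev L (mulT k a b) - lev L a * lev L b
  | 0, _, a, b => by simp
  | k + 1, h, [], b => by simp [mulT, lev]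
  | k + 1, h, a :: as, b => by
    have h1 := lev_addT h ((b.take (k + 1)).map (fun x => a * x % 11)) (0 :: mulT k as b)
    have h2 := lev_scale h a (b.take (k + 1))
    have h3 := (lev_take (L := L) (k + 1) b).mul_left (a : R)
    have h4 := mul_dvd_mul_left L
      (lev_mulT k ((pow_dvd_pow L (Nat.le_succ k)).trans h) as b)
    rw [← pow_succ'] at h4
    convert dvd_add (dvd_add (dvd_add h1 h2) h3) h4 using 1
    simp only [mulT, lev]; push_cast; ring

/-- `x` has expansion `a` to order `n`. -/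
def Expands (L : R) (n : ℕ) (x : R) (a : List ℕ) : Prop := L ^ n ∣ x - lev L a

lemma Expands.mul (h : L ^ n ∣ ((11 : ℕ) : R)) {x y : R} {a b : List ℕ} (hx : Expands L n x a)
    (hy : Expands L n y b) : Expands L n (x * y) (mulT n a b) := by
  have := dvd_sub (dvd_add (hx.mul_right y) (hy.mul_left (lev L a))) (lev_mulT n h a b)
  unfold Expands
  convert this using 1
  ring

lemma Expands.pow (h : L ^ n ∣ ((11 : ℕ) : R)) {x : R} {a : List ℕ} (hx : Expands L n x a) :
    ∀ e : ℕ, Expands L n (x ^ e) (powT n a e)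
  | 0 => by simp [Expands, powT, lev]
  | e + 1 => by
    rw [pow_succ']
    exact hx.mul h (Expands.pow h hx e)

lemma Expands.of_eq {x : R} {a b : List ℕ} (hx : Expands L n x a) (he : a = b) :
    Expands L n x b := he ▸ hx

end

lemma one_add_pow_linear (y : R) : ∀ e : ℕ, ∃ k, (1 + y) ^ e = 1 + e * y + y ^ 2 * k
  | 0 => ⟨0, by simp⟩
  | e + 1 => by
    obtain ⟨k, hk⟩ := one_add_pow_linear y e
    exact ⟨k * (1 + y) + e, by rw [pow_succ, hk]; push_cast; ring⟩

/-- A leading-term certificate: `x ≡ c (1 + d L^j)` modulo `L^(j+1)`. -/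
structure Leading (L x : R) (j : ℕ) : Prop where
  exists_coeff : ∃ c d : ℤ, ¬ (11 : ℤ) ∣ c ∧ ¬ (11 : ℤ) ∣ d ∧
    L ^ (j + 1) ∣ x - c * (1 + d * L ^ j)

section

variable [IsDomain R] {L : R}

/-- Units with distinct leading degrees are independent modulo the integers and eleventh powers. -/
theorem indep (hL : Prime L) (hdvd : ∀ n : ℤ, L ∣ (n : R) → (11 : ℤ) ∣ n)
    (hp : Associated (L ^ 10) ((11 : ℕ) : R)) (hpow : ∀ r : R, ∃ n : ℤ, ((11 : ℕ) : R) ∣ r ^ 11 - n) :
    ∀ l : List (R × ℕ × ℕ), (∀ t ∈ l, Leading L t.1 t.2.1 ∧ 0 < t.2.1 ∧ t.2.1 < 10) →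
      l.Pairwise (fun s t => s.2.1 < t.2.1) → ∀ m n : ℤ, ¬ (11 : ℤ) ∣ m →
      L ^ 10 ∣ (l.map (fun t => t.1 ^ t.2.2)).prod * m - n → ∀ t ∈ l, 11 ∣ t.2.2 := by
  intro l
  induction l with
  | nil => simp
  | cons a l ih =>
    intro hl hpw m n hm hn
    obtain ⟨x, j, e⟩ := a
    have hint : ∀ {k : ℤ}, (11 : ℤ) ∣ k → L ^ 10 ∣ (k : R) := by
      rintro k ⟨t, rfl⟩
      push_cast
      exact (hp.dvd.trans (dvd_of_eq (by norm_num))).mul_right _
    obtain ⟨hlead, hj0, hj10⟩ : Leading L x j ∧ 0 < j ∧ j < 10 := hl _ List.mem_cons_self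
    obtain ⟨hhead, htail⟩ := List.pairwise_cons.mp hpw
    have hl' : ∀ t ∈ l, Leading L t.1 t.2.1 ∧ 0 < t.2.1 ∧ t.2.1 < 10 :=
      fun t ht => hl t (List.mem_cons_of_mem _ ht)
    rw [List.map_cons, List.prod_cons] at hn
    -- the tail is an integer to order `j + 1`
    have htailint : ∀ l' : List (R × ℕ × ℕ), (∀ t ∈ l', Leading L t.1 t.2.1 ∧ j < t.2.1) →
        ∃ C : ℤ, ¬ (11 : ℤ) ∣ C ∧ L ^ (j + 1) ∣ (l'.map (fun t => t.1 ^ t.2.2)).prod - C := by
      intro l'
      induction l' with
      | nil => intro _; exact ⟨1, by norm_num, by simp⟩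
      | cons b l' ih' =>
        intro h'
        obtain ⟨C, hC, hC'⟩ := ih' fun t ht => h' t (List.mem_cons_of_mem _ ht)
        obtain ⟨⟨c, d, hc, -, hcd⟩, hjb⟩ := h' b List.mem_cons_self
        refine ⟨c ^ b.2.2 * C, fun h => ?_, ?_⟩
        · rcases Int.Prime.dvd_mul' (p := 11) (by norm_num) h with h | h
          · exact hc (Int.Prime.dvd_pow' (p := 11) (by norm_num) h)
          · exact hC h
        · have h1 : L ^ (j + 1) ∣ b.1 - c := by
            have := dvd_add ((pow_dvd_pow L (by omega : j + 1 ≤ b.2.1 + 1)).trans hcd)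
              ((pow_dvd_pow L (by omega : j + 1 ≤ b.2.1)).mul_left ((c : R) * d))
            convert this using 1; ring
          have h2 := h1.trans (sub_dvd_pow_sub_pow b.1 (c : R) b.2.2)
          rw [List.map_cons, List.prod_cons]
          have := dvd_add (h2.mul_right (l'.map (fun t => t.1 ^ t.2.2)).prod)
            (hC'.mul_left ((c : R) ^ b.2.2))
          convert this using 1; push_cast; ring
    obtain ⟨C, hC, hC'⟩ := htailint l fun t ht => ⟨(hl' t ht).1, hhead t ht⟩
    have he : 11 ∣ e := by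
      by_contra he
      obtain ⟨c, d, hc, hd, hcd⟩ := hlead.exists_coeff
      set y := (c : R) * (1 + d * L ^ j) with hy
      have h1 : L ^ (j + 1) ∣ x ^ e - (c : R) ^ e * (1 + e * (d * L ^ j)) := by
        have ha := hcd.trans (sub_dvd_pow_sub_pow x y e)
        obtain ⟨k, hk⟩ := one_add_pow_linear ((d : R) * L ^ j) e
        have hb : L ^ (j + 1) ∣ ((d : R) * L ^ j) ^ 2 * k := by
          rw [mul_pow, ← pow_mul]
          exact (((pow_dvd_pow L (by omega : j + 1 ≤ j * 2))).mul_left _).mul_right _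
        have := dvd_add ha (hb.mul_left ((c : R) ^ e))
        convert this using 1
        rw [hy, mul_pow]
        linear_combination (c : R) ^ e * hk
      set T := (l.map (fun t => t.1 ^ t.2.2)).prod with hT
      have hd0 : L ^ (j + 1) ∣ x ^ e * T * m - n := (pow_dvd_pow L (by omega)).trans hn
      have h2 : L ^ (j + 1) ∣ ((c ^ e * C * m - n : ℤ) : R) +
          ((c ^ e * C * m * e * d : ℤ) : R) * L ^ j := by
        have := dvd_sub hd0 (dvd_add ((h1.mul_right T).mul_right (m : R))
          ((hC'.mul_left ((c : R) ^ e * (1 + e * (d * L ^ j)))).mul_right (m : R)))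
        convert this using 1
        push_cast; ring
      have h3 : (11 : ℤ) ∣ c ^ e * C * m - n := by
        refine hdvd _ ?_
        have := dvd_sub ((dvd_pow_self L (by omega : j + 1 ≠ 0)).trans h2)
          ((dvd_pow_self L hj0.ne').mul_left ((c ^ e * C * m * e * d : ℤ) : R))
        simpa using this
      have h4 : L ^ (j + 1) ∣ ((c ^ e * C * m * e * d : ℤ) : R) * L ^ j := by
        have := dvd_sub h2 ((pow_dvd_pow L (by omega : j + 1 ≤ 10)).trans (hint h3))
        simpa using this
      have h5 : L ∣ ((c ^ e * C * m * e * d : ℤ) : R) := by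
        rw [pow_succ', mul_dvd_mul_iff_right (pow_ne_zero j hL.ne_zero)] at h4
        exact h4
      have h11 : Nat.Prime 11 := by norm_num
      rcases Int.Prime.dvd_mul' h11 (hdvd _ h5) with h | h
      · rcases Int.Prime.dvd_mul' h11 h with h | h
        · rcases Int.Prime.dvd_mul' h11 h with h | h
          · rcases Int.Prime.dvd_mul' h11 h with h | h
            · exact hc (Int.Prime.dvd_pow' h11 h)
            · exact hC h
          · exact hm h
        · exact he (Int.natCast_dvd_natCast.mp h)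
      · exact hd h
    obtain ⟨k, rfl⟩ := he
    obtain ⟨N, hN⟩ := hpow (x ^ k)
    have hN0 : ¬ (11 : ℤ) ∣ N := by
      intro h
      obtain ⟨c, d, hc, -, hcd⟩ := hlead.exists_coeff
      have h1 : L ∣ (x ^ k) ^ 11 := by
        have h' : L ∣ (x ^ k) ^ 11 - N := ((dvd_pow_self L (by norm_num : (10:ℕ) ≠ 0)).trans hp.dvd).trans hN
        simpa using dvd_add h' ((dvd_pow_self L (by norm_num : (10:ℕ) ≠ 0)).trans (hint h))
      have h2 : L ∣ x := hL.dvd_of_dvd_pow (hL.dvd_of_dvd_pow h1)
      have h3 : L ∣ x - (c : R) * (1 + d * L ^ j) := (dvd_pow_self L (by omega)).trans hcd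
      have := dvd_sub (dvd_sub h2 h3) ((dvd_pow_self L hj0.ne').mul_left ((c : R) * d))
      refine hc (hdvd c ?_)
      convert this using 1; ring
    rintro t (_ | ⟨_, ht⟩)
    · exact dvd_mul_right 11 k
    · refine ih hl' htail (N * m) n (fun h => ?_) ?_ t ht
      · rcases Int.Prime.dvd_mul' (p := 11) (by norm_num) h with h | h
        · exact hN0 h
        · exact hm h
      · rw [mul_comm 11 k, pow_mul] at hn
        have := dvd_sub hn
          (((hp.dvd.trans hN).mul_right (l.map (fun t => t.1 ^ t.2.2)).prod).mul_right (m : R))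
        convert this using 1
        push_cast; ring

end

end Fermat.Agent.FLT11
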