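import Fermat.Agent.FLT11.PID
import Fermat.Agent.FLT11.Trunc
import Fermat.Agent.FLT11.Descent
import Mathlib.NumberTheory.NumberField.Units.DirichletTheorem

/-!
Kummer's lemma for the eleventh cyclotomic field, and the resulting descent ring.
-/

namespace Fermat.Agent.FLT11

open NumberField NumberField.Units Finset

variable {K : Type*} [Field K] [NumberField K] [IsCyclotomicExtension {11} ℚ K]
variable {ζ : K} (hζ : IsPrimitiveRoot ζ 11)

local instance factElevenUnits : Fact (Nat.Prime 11) := ⟨by norm_num⟩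

omit [NumberField K] [IsCyclotomicExtension {11} ℚ K] in
include hζ in
lemma assoc_eleven : Associated ((hζ.toInteger - 1) ^ 10) ((11 : ℕ) : 𝓞 K) :=
  IsCyclotomicExtension.Rat.associated_zeta_sub_one_pow_prime 11 hζ

include hζ in
lemma int_of_lam_dvd {n : ℤ} (h : hζ.toInteger - 1 ∣ (n : 𝓞 K)) : (11 : ℤ) ∣ n := by
  exact_mod_cast (IsCyclotomicExtension.Rat.zeta_sub_one_dvd_intCast_iff' 11 hζ).mp h

include hζ in
lemma residue_int (x : 𝓞 K) : ∃ n : ℤ, hζ.toInteger - 1 ∣ x - n :=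
  exists_int_congr hζ (r := 1) (by simp) x

include hζ in
lemma pow_eleven_int (r : 𝓞 K) : ∃ n : ℤ, ((11 : ℕ) : 𝓞 K) ∣ r ^ 11 - n := by
  obtain ⟨n, s, hs⟩ := residue_int hζ r
  refine ⟨n ^ 11, ?_⟩
  have hr : r = (n : 𝓞 K) + (hζ.toInteger - 1) * s := by rw [← hs]; ring
  have h1 : ((11 : ℕ) : 𝓞 K) ∣ ((hζ.toInteger - 1) * s) ^ 11 := by
    rw [mul_pow]
    exact ((assoc_eleven hζ).symm.dvd.trans (pow_dvd_pow _ (by norm_num))).mul_right _
  rw [hr, add_pow_prime_eq (p := 11) (by norm_num)]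
  refine (dvd_add h1 (((dvd_refl ((11 : ℕ) : 𝓞 K)).mul_right
    ((n : 𝓞 K) * ((hζ.toInteger - 1) * s))).mul_right
    (∑ k ∈ Ioo 0 11, (n : 𝓞 K) ^ (k - 1) * ((hζ.toInteger - 1) * s) ^ (11 - k - 1) *
      ↑((11 : ℕ).choose k / 11)))).trans (dvd_of_eq ?_)
  push_cast; ring

/-- `1 + ζ + ⋯ + ζ^(a-1)`, a unit for `11 ∤ a`. -/
noncomputable def cyc (a : ℕ) : 𝓞 K := ∑ i ∈ range a, hζ.toInteger ^ i

omit [NumberField K] [IsCyclotomicExtension {11} ℚ K] in
include hζ in
lemma isUnit_cyc {a : ℕ} (ha : a.Coprime 11) : IsUnit (cyc hζ a) :=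
  hζ.toInteger_isPrimitiveRoot.geom_sum_isUnit (by norm_num) ha

/-- The five units with distinct leading degrees. -/
noncomputable def specialUnit : Fin 5 → 𝓞 K :=
  ![hζ.toInteger,
    hζ.toInteger ^ 5 * cyc hζ 2,
    hζ.toInteger ^ 4 * cyc hζ 2 * cyc hζ 3,
    hζ.toInteger ^ 5 * cyc hζ 2 ^ 7 * cyc hζ 3 * cyc hζ 4,
    hζ.toInteger * cyc hζ 2 ^ 5 * cyc hζ 3 ^ 3 * cyc hζ 4 ^ 9 * cyc hζ 5]

/-- Their leading degrees. -/
def specialDeg : Fin 5 → ℕ := ![1, 2, 4, 6, 8]

omit [NumberField K] [IsCyclotomicExtension {11} ℚ K] in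
include hζ in
lemma isUnit_specialUnit (i : Fin 5) : IsUnit (specialUnit hζ i) := by
  have hz : IsUnit hζ.toInteger := hζ.toInteger_isPrimitiveRoot.isUnit (by norm_num)
  have h2 := isUnit_cyc hζ (a := 2) (by norm_num)
  have h3 := isUnit_cyc hζ (a := 3) (by norm_num)
  have h4 := isUnit_cyc hζ (a := 4) (by norm_num)
  have h5 := isUnit_cyc hζ (a := 5) (by norm_num)
  fin_cases i
  · exact hz
  · exact (hz.pow _).mul h2
  · exact ((hz.pow _).mul h2).mul h3
  · exact (((hz.pow _).mul (h2.pow _)).mul h3).mul h4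
  · exact (((hz.mul (h2.pow _)).mul (h3.pow _)).mul (h4.pow _)).mul h5

omit [NumberField K] [IsCyclotomicExtension {11} ℚ K] in
include hζ in
lemma leading_of_expands {x : 𝓞 K} {l : List ℕ} (j : ℕ) (c d : ℕ) (hc : ¬ 11 ∣ c) (hd : ¬ 11 ∣ d)
    (hx : Expands (hζ.toInteger - 1) (j + 1) x l)
    (hl : lev (hζ.toInteger - 1) l = c + ((c * d % 11 : ℕ) : 𝓞 K) * (hζ.toInteger - 1) ^ j)
    (hj : j < 10) : Leading (hζ.toInteger - 1) x j := by
  set L := hζ.toInteger - 1
  refine ⟨c, d, by exact_mod_cast hc, by exact_mod_cast hd, ?_⟩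
  have h11 : L ^ (j + 1) ∣ ((11 : ℕ) : 𝓞 K) :=
    (pow_dvd_pow L (by omega)).trans (assoc_eleven hζ).dvd
  have := dvd_add hx ((dvd_natCast_mod h11 (c * d)).mul_right (L ^ j))
  convert this using 1
  rw [hl]; push_cast; ring

include hζ in
lemma leading_specialUnit (i : Fin 5) :
    Leading (hζ.toInteger - 1) (specialUnit hζ i) (specialDeg i) := by
  set z := hζ.toInteger with hz
  set L := z - 1 with hL
  have ez : ∀ n, Expands L n z [1, 1] := fun n => by
    simp [Expands, lev, hL]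
  have e2 : ∀ n, Expands L n (cyc hζ 2) [2, 1] := fun n => by
    simp [Expands, lev, cyc, sum_range_succ, ← hz, hL]; ring_nf; simp
  have e3 : ∀ n, Expands L n (cyc hζ 3) [3, 3, 1] := fun n => by
    simp [Expands, lev, cyc, sum_range_succ, ← hz, hL]; ring_nf; simp
  have e4 : ∀ n, Expands L n (cyc hζ 4) [4, 6, 4, 1] := fun n => by
    simp [Expands, lev, cyc, sum_range_succ, ← hz, hL]; ring_nf; simp
  have e5 : ∀ n, Expands L n (cyc hζ 5) [5, 10, 10, 5, 1] := fun n => by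
    simp [Expands, lev, cyc, sum_range_succ, ← hz, hL]; ring_nf; simp
  have h11 : ∀ n, n ≤ 10 → L ^ n ∣ ((11 : ℕ) : 𝓞 K) := fun n hn =>
    (pow_dvd_pow L hn).trans (assoc_eleven hζ).dvd
  fin_cases i
  · exact leading_of_expands hζ 1 1 1 (by norm_num) (by norm_num) (ez 2)
      (by simp [lev]) (by norm_num)
  · have h := h11 3 (by norm_num)
    exact leading_of_expands hζ 2 2 7 (by norm_num) (by norm_num)
      ((((ez 3).pow h 5).mul h (e2 3)).of_eq (b := [2, 0, 3]) (by decide +kernel))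
      (by simp [lev]; ring) (by norm_num)
  · have h := h11 5 (by norm_num)
    exact leading_of_expands hζ 4 6 9 (by norm_num) (by norm_num)
      (((((ez 5).pow h 4).mul h (e2 5)).mul h (e3 5)).of_eq (b := [6, 0, 0, 0, 10])
        (by decide +kernel))
      (by simp [lev]; ring) (by norm_num)
  · have h := h11 7 (by norm_num)
    exact leading_of_expands hζ 6 7 1 (by norm_num) (by norm_num)
      ((((((ez 7).pow h 5).mul h ((e2 7).pow h 7)).mul h (e3 7)).mul h (e4 7)).of_eq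
        (b := [7, 0, 0, 0, 0, 0, 7]) (by decide +kernel))
      (by simp [lev]; ring) (by norm_num)
  · have h := h11 9 (by norm_num)
    exact leading_of_expands hζ 8 2 2 (by norm_num) (by norm_num)
      (((((((ez 9)).mul h ((e2 9).pow h 5)).mul h ((e3 9).pow h 3)).mul h ((e4 9).pow h 9)).mul h
        (e5 9)).of_eq (b := [2, 0, 0, 0, 0, 0, 0, 0, 4]) (by decide +kernel))
      (by simp [lev]; ring) (by norm_num)

include hζ in
lemma specialUnit_indep (e : Fin 5 → ℕ) (m n : ℤ) (hm : ¬ (11 : ℤ) ∣ m)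
    (h : ((11 : ℕ) : 𝓞 K) ∣ (∏ i, specialUnit hζ i ^ e i) * m - n) (i : Fin 5) : 11 ∣ e i := by
  refine indep hζ.zeta_sub_one_prime' (fun n hn => int_of_lam_dvd hζ hn) (assoc_eleven hζ)
    (pow_eleven_int hζ) (List.ofFn fun i => (specialUnit hζ i, specialDeg i, e i)) ?_ ?_ m n hm
    ?_ (specialUnit hζ i, specialDeg i, e i) (List.mem_ofFn.mpr ⟨i, rfl⟩)
  · intro t ht
    obtain ⟨j, rfl⟩ := List.mem_ofFn.mp ht
    refine ⟨leading_specialUnit hζ j, ?_⟩
    fin_cases j <;> simp [specialDeg]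
  · rw [List.pairwise_ofFn]
    intro a b hab
    fin_cases a <;> fin_cases b <;> simp [specialDeg] at hab ⊢
  · rw [List.map_ofFn, List.prod_ofFn]
    exact (assoc_eleven hζ).dvd.trans h

section counting

variable (K)

lemma rank_eq_four : rank K = 4 := by
  rw [Units.rank, InfinitePlace.card_eq_nrRealPlaces_add_nrComplexPlaces,
    IsCyclotomicExtension.Rat.nrRealPlaces_eq_zero (n := 11) K (by norm_num),
    IsCyclotomicExtension.Rat.nrComplexPlaces_eq_totient_div_two 11,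
    Nat.totient_prime (by norm_num)]

lemma torsion_mod_pow (t : (𝓞 K)ˣ) (ht : t ∈ torsion K) :
    ∃ a : ℕ, a < 11 ∧ ∃ w : (𝓞 K)ˣ,
      t = w ^ 11 * ((IsCyclotomicExtension.zeta_spec 11 ℚ K).toInteger_isPrimitiveRoot.isUnit
        (by norm_num)).unit ^ a := by
  set hζ := IsCyclotomicExtension.zeta_spec 11 ℚ K
  set zu := (hζ.toInteger_isPrimitiveRoot.isUnit (by norm_num : (11:ℕ) ≠ 0)).unit
  have hfin : IsOfFinOrder (((t : 𝓞 K)) : K) := by
    have h1 : IsOfFinOrder t := (CommGroup.mem_torsion t).mp ht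
    exact (MonoidHom.isOfFinOrder ((algebraMap (𝓞 K) K).toMonoidHom.comp (Units.coeHom _)) h1)
  have hz : algebraMap (𝓞 K) K hζ.toInteger = IsCyclotomicExtension.zeta 11 ℚ K := rfl
  obtain ⟨a, ha, h⟩ := hζ.exists_pow_or_neg_mul_pow_of_isOfFinOrder (by decide) hfin
  rcases h with h | h
  · refine ⟨a, ha, 1, ?_⟩
    rw [one_pow, one_mul]
    refine Units.ext (RingOfIntegers.ext ?_)
    simpa [zu, hz] using h
  · refine ⟨a, ha, -1, ?_⟩
    refine Units.ext (RingOfIntegers.ext ?_)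
    simpa [zu, hz, Odd.neg_one_pow (show Odd 11 by decide)] using h

end counting

include hζ in
/-- Kummer's lemma: a unit congruent to a rational integer modulo `11` is an eleventh power. -/
theorem kummer_units (u : (𝓞 K)ˣ) (hu : ∃ n : ℤ, ((11 : ℕ) : 𝓞 K) ∣ (u : 𝓞 K) - n) :
    ∃ w : (𝓞 K)ˣ, u = w ^ 11 := by
  set S : Subgroup (𝓞 K)ˣ := (powMonoidHom 11).range with hS
  have hmemS : ∀ {x : (𝓞 K)ˣ}, x ∈ S ↔ ∃ w, w ^ 11 = x := fun {x} => Iff.rfl
  set zu := ((IsCyclotomicExtension.zeta_spec 11 ℚ K).toInteger_isPrimitiveRoot.isUnit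
    (by norm_num : (11:ℕ) ≠ 0)).unit with hzu
  have hr := rank_eq_four K
  -- an upper bound for the units modulo eleventh powers
  let f : Fin 11 × (Fin (rank K) → Fin 11) → (𝓞 K)ˣ ⧸ S := fun q =>
    QuotientGroup.mk (zu ^ (q.1 : ℕ) * ∏ i, fundSystem K i ^ (q.2 i : ℕ))
  have hf : Function.Surjective f := by
    intro x
    obtain ⟨v, rfl⟩ := QuotientGroup.mk_surjective x
    obtain ⟨⟨t, e⟩, he, -⟩ := exist_unique_eq_mul_prod K v
    obtain ⟨a, ha, w, hw⟩ := torsion_mod_pow K t t.2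
    refine ⟨(⟨a, ha⟩, fun i => ⟨(e i % 11).toNat, by omega⟩), ?_⟩
    refine QuotientGroup.eq.mpr (hmemS.mpr ⟨w * ∏ i, fundSystem K i ^ (e i / 11), ?_⟩)
    have key : ∀ i, fundSystem K i ^ (e i) =
        fundSystem K i ^ ((e i % 11).toNat) * (fundSystem K i ^ (e i / 11)) ^ 11 := by
      intro i
      rw [← zpow_natCast (fundSystem K i), ← zpow_natCast (fundSystem K i ^ (e i / 11)),
        ← zpow_mul, ← zpow_add]
      congr 1
      omega
    simp only at he
    rw [he, hw, ← hzu, eq_inv_mul_iff_mul_eq, mul_pow, ← prod_pow]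
    simp only [key, prod_mul_distrib, mul_assoc, mul_left_comm]
  have : Finite ((𝓞 K)ˣ ⧸ S) := Finite.of_surjective f hf
  have hcard : Nat.card ((𝓞 K)ˣ ⧸ S) ≤ 11 ^ 5 := by
    refine (Nat.card_le_card_of_surjective f hf).trans (le_of_eq ?_)
    simp [hr]
  -- the special units exhaust it
  let su : Fin 5 → (𝓞 K)ˣ := fun i => (isUnit_specialUnit hζ i).unit
  let g : (Fin 5 → Fin 11) → (𝓞 K)ˣ ⧸ S := fun e => QuotientGroup.mk (∏ i, su i ^ (e i : ℕ))
  have hval : ∀ e : Fin 5 → ℕ, ((∏ i, su i ^ e i : (𝓞 K)ˣ) : 𝓞 K) =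
      ∏ i, specialUnit hζ i ^ e i := fun e => by
    simp [su, Units.coe_prod]
  have hpowdvd : ∀ {m : ℤ} {w : (𝓞 K)ˣ}, ((11 : ℕ) : 𝓞 K) ∣ ((w : 𝓞 K)) ^ 11 - m →
      ¬ (11 : ℤ) ∣ m := by
    intro m w hm ⟨t, ht⟩
    apply hζ.zeta_sub_one_prime'.not_isUnit
    refine isUnit_of_dvd_unit ((dvd_pow_self _ (by norm_num : (10:ℕ) ≠ 0)).trans
      ((assoc_eleven hζ).dvd.trans ?_)) ((w.isUnit).pow 11)
    rw [ht] at hm
    push_cast at hm ⊢
    simpa using dvd_add hm ((dvd_refl (11 : 𝓞 K)).mul_right (t : 𝓞 K))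
  have hg : Function.Injective g := by
    intro a b hab
    obtain ⟨w, hw⟩ := hmemS.mp (QuotientGroup.eq.mp hab)
    obtain ⟨N, hN⟩ := pow_eleven_int hζ (w * ∏ i, su i : (𝓞 K)ˣ)
    funext i
    have := specialUnit_indep hζ (fun i => (b i : ℕ) + (11 - (a i : ℕ))) 1 N (by norm_num) (by
      have e : (∏ i, su i ^ ((b i : ℕ) + (11 - (a i : ℕ)))) = (w * ∏ i, su i) ^ 11 := by
        rw [mul_pow, hw, mul_assoc, eq_inv_mul_iff_mul_eq, ← prod_pow, ← prod_mul_distrib,
          ← prod_mul_distrib]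
        refine prod_congr rfl fun i _ => ?_
        rw [← pow_add, ← pow_add]
        congr 1
        have := (a i).isLt
        omega
      rw [← hval, e]
      simpa using hN) i
    have := (a i).isLt
    have := (b i).isLt
    exact Fin.ext (by omega)
  have hbij : Function.Surjective g := by
    have := Fintype.ofFinite ((𝓞 K)ˣ ⧸ S)
    refine ((Fintype.bijective_iff_injective_and_card g).mpr ⟨hg, le_antisymm
      (Fintype.card_le_of_injective g hg) ?_⟩).2
    rw [← Nat.card_eq_fintype_card]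
    exact hcard.trans (le_of_eq (by simp))
  obtain ⟨e, he⟩ := hbij (QuotientGroup.mk u)
  obtain ⟨w, hw⟩ := hmemS.mp (QuotientGroup.eq.mp he)
  have huw : u = (∏ i, su i ^ (e i : ℕ)) * w ^ 11 := by rw [hw]; group
  obtain ⟨n, hn⟩ := hu
  obtain ⟨m, hm⟩ := pow_eleven_int hζ (w : 𝓞 K)
  have h0 : ∀ i, (e i : ℕ) = 0 := fun i => by
    have := specialUnit_indep hζ (fun i => (e i : ℕ)) m n (hpowdvd hm) (by
      rw [huw, Units.val_mul, Units.val_pow_eq_pow_val, hval] at hn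
      have := dvd_sub hn (hm.mul_left (∏ i, specialUnit hζ i ^ (e i : ℕ)))
      convert this using 1; ring) i
    have := (e i).isLt
    omega
  exact ⟨w, by rw [huw]; simp [h0]⟩

variable (K) in
/-- The ring of integers of `ℚ(ζ₁₁)` satisfies all hypotheses of Kummer's descent. -/
theorem kummerRing_eleven :
    KummerRing (𝓞 K) 11 (IsCyclotomicExtension.zeta_spec 11 ℚ K).toInteger where
  prime_p := by norm_num
  odd_p := by norm_num
  prim := (IsCyclotomicExtension.zeta_spec 11 ℚ K).toInteger_isPrimitiveRoot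
  prime_lam := (IsCyclotomicExtension.zeta_spec 11 ℚ K).zeta_sub_one_prime'
  exists_int := residue_int (IsCyclotomicExtension.zeta_spec 11 ℚ K)
  dvd_int := fun _ h => int_of_lam_dvd (IsCyclotomicExtension.zeta_spec 11 ℚ K) h
  assoc := assoc_eleven (IsCyclotomicExtension.zeta_spec 11 ℚ K)
  units_pow := kummer_units (IsCyclotomicExtension.zeta_spec 11 ℚ K)

end Fermat.Agent.FLT11
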